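import Fermat.Agent.RobinsonArithmetic.Models
import Fermat.Agent.Root.SummaryEffectiveCompleteness
import Mathlib.ModelTheory.Algebra.Ring.Basic

/-!
# Arithmetic relativised to a definable subset of a ring

The symbols of arithmetic become those of rings and the quantifiers are bounded by a formula `δ` in
one variable. One sentence says that the subset of `δ` is closed under the operations and satisfies
Robinson's axioms.
-/

set_option autoImplicit false

namespace FA.UndecidableTheories

open FirstOrder FirstOrder.Ring FirstOrder.Language ArithmeticTruth RobinsonArithmetic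

/-- The symbols of arithmetic as symbols of rings. -/
def toRing : arithLanguage →ᴸ Language.ring where
  onFunction {k} := match k with
    | 0 => fun f : Fin 2 => (![zeroFunc, oneFunc] f : Language.ring.Functions 0)
    | 1 => fun f : Empty => f.elim
    | 2 => fun f : Fin 2 => (![addFunc, mulFunc] f : Language.ring.Functions 2)
    | _ + 3 => fun f : Empty => f.elim
  onRelation {_} R := R.elim

instance instFiniteRobinsonQ : Finite robinsonQ :=
  Set.Finite.to_subtype (by simp [robinsonQ])

/-- `δ` at a bound variable. -/
def atVar (δ : Language.ring.Formula (Fin 1)) {n : ℕ} (i : Fin n) :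
    Language.ring.BoundedFormula Empty n :=
  BoundedFormula.relabel (fun _ => (Sum.inr i : Empty ⊕ Fin n)) δ

/-- The relativised formula. -/
def relForm (δ : Language.ring.Formula (Fin 1)) :
    ∀ {n : ℕ}, arithLanguage.BoundedFormula Empty n → Language.ring.BoundedFormula Empty n
  | _, .falsum => .falsum
  | _, .equal t u => .equal (toRing.onTerm t) (toRing.onTerm u)
  | _, .rel R _ => R.elim
  | _, .imp φ ψ => (relForm δ φ).imp (relForm δ ψ)
  | n, .all φ => ((atVar δ (Fin.last n)).imp (relForm δ φ)).all

/-- The subset is closed under a symbol. -/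
noncomputable def closedUnder (δ : Language.ring.Formula (Fin 1))
    (f : Σ k, arithLanguage.Functions k) : Language.ring.Sentence :=
  Formula.iAlls (Fin f.1) ((Formula.iInf fun i => δ.relabel fun _ => Sum.inr i).imp
    (BoundedFormula.subst δ fun _ => .func (toRing.onFunction f.2) fun i => .var (Sum.inr i)))

/-- The subset is a model of Robinson's arithmetic. -/
noncomputable def robinsonSentence (δ : Language.ring.Formula (Fin 1)) : Language.ring.Sentence :=
  Formula.iInf (closedUnder δ) ⊓ Formula.iInf fun ψ : robinsonQ => (relForm δ ψ.1 : _)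

/-- A map onto the subset of `δ` which respects the operations. -/
structure IsInterp {N M : Type*} [arithLanguage.Structure N] [Language.ring.Structure M]
    (δ : Language.ring.Formula (Fin 1)) (ι : N → M) : Prop where
  injective : Function.Injective ι
  mem_iff : ∀ m, δ.Realize (fun _ => m) ↔ ∃ a, ι a = m
  map_fun : ∀ {k} (f : arithLanguage.Functions k) (v : Fin k → N),
    ι (Structure.funMap f v) = Structure.funMap (toRing.onFunction f) (ι ∘ v)

variable {δ : Language.ring.Formula (Fin 1)} {N M : Type*} [arithLanguage.Structure N]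
  [Language.ring.Structure M] {ι : N → M}

theorem realize_atVar {n : ℕ} (i : Fin n) (v : Empty → M) (xs : Fin n → M) :
    (atVar δ i).Realize v xs ↔ δ.Realize fun _ => xs i :=
  BoundedFormula.realize_relabel.trans (iff_of_eq (congrArg₂ _ rfl (Subsingleton.elim _ _)))

theorem realize_onTerm (h : IsInterp δ ι) {α : Type} (v : α → N) :
    ∀ t : arithLanguage.Term α, (toRing.onTerm t).realize (ι ∘ v) = ι (t.realize v)
  | .var _ => rfl
  | .func f ts => by
    rw [LHom.onTerm, Term.realize_func, Term.realize_func, h.map_fun]
    exact congrArg _ (funext fun i => realize_onTerm h v (ts i))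

theorem realize_relForm (h : IsInterp δ ι) (v : Empty → N) :
    ∀ {n : ℕ} (φ : arithLanguage.BoundedFormula Empty n) (xs : Fin n → N),
      (relForm δ φ).Realize (ι ∘ v) (ι ∘ xs) ↔ φ.Realize v xs
  | _, .falsum, _ => Iff.rfl
  | _, .equal t u, xs => by
    simp only [relForm, BoundedFormula.Realize, ← Sum.comp_elim, realize_onTerm h]
    exact h.injective.eq_iff
  | _, .rel R _, _ => R.elim
  | _, .imp φ ψ, xs => imp_congr (realize_relForm h v φ xs) (realize_relForm h v ψ xs)
  | n, .all φ, xs => by
    simp only [relForm, BoundedFormula.Realize, realize_atVar, Fin.snoc_last, h.mem_iff]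
    refine ⟨fun H a => (realize_relForm h v φ _).1 ?_, ?_⟩
    · rw [Fin.comp_snoc]
      exact H (ι a) ⟨a, rfl⟩
    · rintro H m ⟨a, rfl⟩
      rw [← Fin.comp_snoc]
      exact (realize_relForm h v φ _).2 (H a)

theorem realize_relForm_sentence (h : IsInterp δ ι) (φ : arithLanguage.Sentence) :
    M ⊨ (relForm δ φ : Language.ring.Sentence) ↔ N ⊨ φ := by
  refine Iff.trans (iff_of_eq ?_) (realize_relForm h default φ default)
  exact congrArg₂ (BoundedFormula.Realize (relForm δ φ)) (Subsingleton.elim _ _)
    (Subsingleton.elim _ _)

theorem realize_closedUnder (f : Σ k, arithLanguage.Functions k) :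
    M ⊨ closedUnder δ f ↔ ∀ v : Fin f.1 → M, (∀ i, δ.Realize fun _ => v i) →
      δ.Realize fun _ => Structure.funMap (toRing.onFunction f.2) v := by
  simp only [closedUnder, Sentence.Realize, Formula.realize_iAlls, Formula.realize_imp,
    Formula.realize_iInf, Formula.realize_relabel]
  refine forall_congr' fun v => imp_congr Iff.rfl ?_
  exact BoundedFormula.realize_subst

/-- An interpretation of a model of Robinson's arithmetic satisfies the sentence. -/
theorem realize_robinsonSentence (h : IsInterp δ ι) (hN : N ⊨ robinsonQ) :
    M ⊨ robinsonSentence δ := by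
  rw [robinsonSentence, Sentence.Realize, Formula.realize_inf, Formula.realize_iInf,
    Formula.realize_iInf]
  refine ⟨fun f => ?_, fun ψ => (realize_relForm_sentence h ψ.1).2
    (hN.realize_of_mem ψ.1 ψ.2)⟩
  refine (realize_closedUnder f).2 fun v hv => ?_
  choose a ha using fun i => (h.mem_iff _).1 (hv i)
  obtain rfl : v = ι ∘ a := funext fun i => (ha i).symm
  rw [← h.map_fun]
  exact (h.mem_iff _).2 ⟨_, rfl⟩

/-- A model of the sentence interprets a model of Robinson's arithmetic. -/
theorem exists_interp {M : Type} [Language.ring.Structure M] (hM : M ⊨ robinsonSentence δ) :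
    ∃ (N : Type) (_ : arithLanguage.Structure N) (ι : N → M), IsInterp δ ι ∧ N ⊨ robinsonQ := by
  rw [robinsonSentence, Sentence.Realize, Formula.realize_inf, Formula.realize_iInf,
    Formula.realize_iInf] at hM
  let S : arithLanguage.Structure { m : M // δ.Realize fun _ => m } :=
    { funMap := fun {k} f v => ⟨Structure.funMap (toRing.onFunction f) fun i => (v i).1,
        (realize_closedUnder ⟨k, f⟩).1 (hM.1 ⟨k, f⟩) _ fun i => (v i).2⟩
      RelMap := fun R => R.elim }
  have h : IsInterp δ (Subtype.val : { m : M // δ.Realize fun _ => m } → M) :=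
    ⟨Subtype.val_injective, fun m => ⟨fun hm => ⟨⟨m, hm⟩, rfl⟩, fun ⟨a, e⟩ => e ▸ a.2⟩,
      fun _ _ => rfl⟩
  exact ⟨_, S, _, h, (Theory.model_iff _).2 fun ψ hψ =>
    (realize_relForm_sentence h ψ).1 (hM.2 ⟨ψ, hψ⟩)⟩

end FA.UndecidableTheories
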