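import Fermat.Agent.RobinsonArithmetic.Separation
import Fermat.Agent.TarskiDecidability.Axioms
import Fermat.Agent.UndecidableTheories.Relativisation

/-!
# Separation in the theories of rings

The instances of Rosser's formula, relativised and guarded by the sentence of Robinson's axioms,
have codes which are primitive recursive in the number.
-/

set_option autoImplicit false

namespace FA.UndecidableTheories

open FirstOrder FirstOrder.Ring FirstOrder.Language ArithmeticTruth RobinsonArithmetic
open EffectiveCompleteness (code termWord formWord varSym termSym natSym)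
open TarskiDecidability (numeralWord)

variable (δ : Language.ring.Formula (Fin 1)) (φ : arithLanguage.BoundedFormula Empty 1)

/-- The guarded relativised instance. -/
noncomputable def guarded (n : ℕ) : Language.ring.Sentence :=
  BoundedFormula.imp (robinsonSentence δ) (relForm δ (instanceSentence φ n))

theorem termWord_onTerm_numeral : ∀ n : ℕ,
    termWord (toRing.onTerm (numeral n : arithLanguage.Term (Empty ⊕ Fin 1))) = numeralWord n
  | 0 => by
    refine (EffectiveCompleteness.termWord_func (L := Language.ring) zeroFunc _).trans ?_
    simp [numeralWord, TarskiDecidability.zeroSym]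
  | n + 1 => by
    refine (EffectiveCompleteness.termWord_func (L := Language.ring) addFunc _).trans ?_
    have h1 : termWord (toRing.onTerm (oneTerm : arithLanguage.Term (Empty ⊕ Fin 1))) =
        [TarskiDecidability.oneSym] := by
      refine (EffectiveCompleteness.termWord_func (L := Language.ring) oneFunc _).trans ?_
      simp [TarskiDecidability.oneSym]
    simp [numeralWord, TarskiDecidability.addSym, List.ofFn_succ, h1,
      termWord_onTerm_numeral n]

theorem code_guarded (n : ℕ) : code (guarded δ φ n) = Encodable.encode
    (natSym 0 :: (formWord (n := 0) (robinsonSentence δ) ++ (natSym 1 :: natSym 0 ::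
      (formWord (atVar δ (0 : Fin 1)) ++ (natSym 0 :: ([termSym 1 [varSym 0],
        termSym 1 (numeralWord n)] ++ formWord (relForm δ φ))))))) := by
  rw [← EffectiveCompleteness.encode_formWord, guarded, EffectiveCompleteness.formWord_imp,
    instanceSentence]
  simp only [relForm]
  rw [EffectiveCompleteness.formWord_all, EffectiveCompleteness.formWord_imp,
    EffectiveCompleteness.formWord_imp, EffectiveCompleteness.formWord_equal,
    termWord_onTerm_numeral, LHom.onTerm, EffectiveCompleteness.termWord_var]
  rfl

theorem computable_code_guarded : Computable fun n => code (guarded δ φ n) := by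
  refine (Primrec.encode.comp (Primrec.list_cons.comp (Primrec.const (natSym 0))
    (Primrec.list_append.comp (Primrec.const (formWord (n := 0) (robinsonSentence δ)))
      (Primrec.list_cons.comp (Primrec.const (natSym 1)) (Primrec.list_cons.comp
        (Primrec.const (natSym 0)) (Primrec.list_append.comp
          (Primrec.const (formWord (atVar δ (0 : Fin 1)))) (Primrec.list_cons.comp
            (Primrec.const (natSym 0)) (Primrec.list_append.comp
              (Primrec.list_cons.comp (Primrec.const (termSym 1 [varSym 0]))
                (Primrec.list_cons.comp (EffectiveCompleteness.primrec_termSym.comp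
                  (Primrec.const 1) TarskiDecidability.primrec_numeralWord) (Primrec.const [])))
              (Primrec.const (formWord (relForm δ φ))))))))))).to_comp.of_eq fun n => ?_
  rw [code_guarded]

/-- **Reduction.** If the natural numbers are defined by `δ` in a model of a theory, the theory
has no computable set of consequences. -/
theorem undecidable_of_interp {R : Type} [Language.ring.Structure R] {ι : ℕ → R}
    (hι : IsInterp δ ι) (T : Language.ring.Theory) (hR : R ⊨ T) :
    ¬ComputablePred fun k => ∃ ψ : Language.ring.Sentence, k = code ψ ∧ T ⊨ᵇ ψ := by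
  intro hdec
  obtain ⟨A, B, hA, hB, hAB, hins⟩ := exists_inseparable
  obtain ⟨φ, hφ⟩ := exists_separating hA hB
  obtain ⟨g, hg, hgT⟩ := ComputablePred.computable_iff.1 hdec
  have hcode : ∀ n, g (code (guarded δ φ n)) = true ↔ T ⊨ᵇ guarded δ φ n := fun n => by
    refine (iff_of_eq (congrFun hgT _)).symm.trans ⟨?_, fun h => ⟨_, rfl, h⟩⟩
    rintro ⟨ψ, e, h⟩
    rwa [← EffectiveCompleteness.code_injective (L := Language.ring) e] at h
  have : Nonempty R := ⟨ι 0⟩
  refine hins ⟨_, hg.comp (computable_code_guarded δ φ),
    fun n hn => (hcode n).2 (Theory.models_sentence_iff.2 fun M => ?_),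
    fun n hn => Bool.eq_false_iff.2 fun h => ?_⟩
  · refine (Formula.realize_imp).2 fun hσ => ?_
    obtain ⟨N, _, j, hj, hN⟩ := exists_interp hσ
    exact (realize_relForm_sentence hj _).2 ((hφ N hN).1 n hn fun h => hAB n ⟨hn, h⟩)
  · have h' := Formula.realize_imp.1
      (Theory.models_sentence_iff.1 ((hcode n).1 h) (Theory.ModelType.of T R))
      (realize_robinsonSentence hι nat_models_robinsonQ)
    exact (hφ ℕ nat_models_robinsonQ).2 n hn (fun h'' => hAB n ⟨h'', hn⟩)
      ((realize_relForm_sentence hι _).1 h')

end FA.UndecidableTheories
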